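/-
S55 / block SYM : SKELETON.  WIP file (contains `sorry`): never import it from a landed file.
Each section `SYM-x` is one task; the owner creates the file named in the section header, namespace
`Fermat.Agent.S55.Sym`, containing EXACTLY these statements (same names), proved.
-/
import Fermat.Agent.S55.Sym.Defs
import Fermat.Agent.S55.Coh.Theta
import Fermat.Agent.S55.Coh.ResDelta
import Fermat.Agent.S55.Coh.ResApi

set_option autoImplicit false

namespace Fermat.Agent.S55.Sym.WIP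

open Fermat.Agent.S55 Fermat.Agent.S55.Sym

variable {G : Type} [Group G] {𝓝 : LevelSys G}

/-! ## SYM-1 : file `Sym/Basic.lean` (bi-additivity, torsion) -/

section S1

variable {X A : Type} [MulAction G X] [Finite X] [SmoothSet 𝓝 X] [AddCommGroup A]
  [DistribMulAction G A] {m : ℕ} [NeZero m]

theorem symb_add_left (χ χ' : Hsm 𝓝 (IndMod X (Triv (ZMod m))) 1) (y : inv0 G (IndMod X A)) :
    symb 𝓝 (χ + χ') y = symb 𝓝 χ y + symb 𝓝 χ' y := sorry

theorem symb_zero_left (y : inv0 G (IndMod X A)) :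
    symb 𝓝 (0 : Hsm 𝓝 (IndMod X (Triv (ZMod m))) 1) y = 0 := sorry

theorem symb_add_right (χ : Hsm 𝓝 (IndMod X (Triv (ZMod m))) 1) (y y' : inv0 G (IndMod X A)) :
    symb 𝓝 χ (y + y') = symb 𝓝 χ y + symb 𝓝 χ y' := sorry

theorem symb_zero_right (χ : Hsm 𝓝 (IndMod X (Triv (ZMod m))) 1) :
    symb 𝓝 χ (0 : inv0 G (IndMod X A)) = 0 := sorry

theorem symb_nsmul_right (χ : Hsm 𝓝 (IndMod X (Triv (ZMod m))) 1) (k : ℕ)
    (y : inv0 G (IndMod X A)) : symb 𝓝 χ (k • y) = k • symb 𝓝 χ y := sorry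

theorem nsmul_H1_eq_zero (χ : Hsm 𝓝 (IndMod X (Triv (ZMod m))) 1) : m • χ = 0 := sorry

theorem nsmul_symb (χ : Hsm 𝓝 (IndMod X (Triv (ZMod m))) 1) (y : inv0 G (IndMod X A)) :
    m • symb 𝓝 χ y = 0 := sorry

theorem mulBy_oneInv (y : inv0 G (IndMod X A)) :
    mulBy y (oneInv G X : IndMod X (Triv ℤ)) = (y : IndMod X A) := sorry

end S1

/-! ## SYM-2 : file `Sym/Nat.lean` (naturality in `X` and `A`, projection formula) -/

section S2

variable {X X₁ A B : Type} [MulAction G X] [Finite X] [SmoothSet 𝓝 X] [MulAction G X₁] [Finite X₁]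
  [SmoothSet 𝓝 X₁] [AddCommGroup A] [DistribMulAction G A] [AddCommGroup B] [DistribMulAction G B]
  {m : ℕ} [NeZero m]

theorem bock_pull (v : X₁ →[G] X) (χ : Hsm 𝓝 (IndMod X (Triv (ZMod m))) 1) :
    bock 𝓝 X₁ m (Hsm.map (IndMod.pull (Triv (ZMod m)) v) 1 χ) =
      Hsm.map (IndMod.pull (Triv ℤ) v) 2 (bock 𝓝 X m χ) := sorry

theorem pull_symb (v : X₁ →[G] X) (χ : Hsm 𝓝 (IndMod X (Triv (ZMod m))) 1)
    (y : inv0 G (IndMod X A)) :
    Hsm.map (IndMod.pull A v) 2 (symb 𝓝 χ y) =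
      symb 𝓝 (Hsm.map (IndMod.pull (Triv (ZMod m)) v) 1 χ) (inv0.map (IndMod.pull A v) y) := sorry

/-- projection formula -/
theorem symb_push (v : X₁ →[G] X) (χ : Hsm 𝓝 (IndMod X (Triv (ZMod m))) 1)
    (y₁ : inv0 G (IndMod X₁ A)) :
    symb 𝓝 χ (inv0.map (IndMod.push A v) y₁) =
      Hsm.map (IndMod.push A v) 2
        (symb 𝓝 (Hsm.map (IndMod.pull (Triv (ZMod m)) v) 1 χ) y₁) := sorry

/-- norms from a cover killing `χ` are orthogonal to `χ` -/
theorem symb_push_eq_zero (v : X₁ →[G] X) (χ : Hsm 𝓝 (IndMod X (Triv (ZMod m))) 1)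
    (hχ : Hsm.map (IndMod.pull (Triv (ZMod m)) v) 1 χ = 0) (y₁ : inv0 G (IndMod X₁ A)) :
    symb 𝓝 χ (inv0.map (IndMod.push A v) y₁) = 0 := sorry

theorem mapCoeff_symb (φ : A →+[G] B) (χ : Hsm 𝓝 (IndMod X (Triv (ZMod m))) 1)
    (y : inv0 G (IndMod X A)) :
    Hsm.map (IndMod.mapCoeff X φ) 2 (symb 𝓝 χ y) =
      symb 𝓝 χ (inv0.map (IndMod.mapCoeff X φ) y) := sorry

end S2

/-! ## SYM-3 : file `Sym/Change.lean` (change of group) -/

section S3

variable {H : Type} [Group H] {f : H →* G} {𝓝H : LevelSys H}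
variable {X X₁ A : Type} [MulAction G X] [Finite X] [SmoothSet 𝓝 X] [SmoothSet 𝓝H (ResSet f X)]
  [MulAction G X₁] [AddCommGroup A] [DistribMulAction G A] {m : ℕ} [NeZero m]

theorem smoothSet_resSet_of_le (hf : (𝓝.comap f).Le 𝓝H) (Z : Type) [MulAction G Z]
    [SmoothSet 𝓝 Z] : SmoothSet 𝓝H (ResSet f Z) := sorry

theorem locH_bock (hf : (𝓝.comap f).Le 𝓝H) (χ : Hsm 𝓝 (IndMod X (Triv (ZMod m))) 1) :
    bock 𝓝H (ResSet f X) m (locHTriv X hf (ZMod m) 1 χ) =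
      locHTriv X hf ℤ 2 (bock 𝓝 X m χ) := sorry

theorem locH_symb (hf : (𝓝.comap f).Le 𝓝H) (χ : Hsm 𝓝 (IndMod X (Triv (ZMod m))) 1)
    (y : inv0 G (IndMod X A)) :
    locH X hf A 2 (symb 𝓝 χ y) =
      symb 𝓝H (locHTriv X hf (ZMod m) 1 χ) (toLocInv f X A y) := sorry

theorem locHTriv_pull (hf : (𝓝.comap f).Le 𝓝H) (M : Type) [AddCommGroup M] (v : X₁ →[G] X) (n : ℕ)
    (χ : Hsm 𝓝 (IndMod X (Triv M)) n) :
    locHTriv X₁ hf M n (Hsm.map (IndMod.pull (Triv M) v) n χ) =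
      Hsm.map (IndMod.pull (Triv M) (resMap f v)) n (locHTriv X hf M n χ) := sorry

/-- `locH` is `res` followed by the identification `Res Map(X, A) = Map(Res X, Res A)`. -/
theorem locH_eq_map_res (hf : (𝓝.comap f).Le 𝓝H) (n : ℕ) (x : Hsm 𝓝 (IndMod X A) n) :
    locH X hf A n x = Hsm.map (IndMod.toResSet f X A) n (Hsm.res (IndMod X A) f 𝓝H 𝓝 hf n x) := sorry

/-- the sum over `X` commutes with localisation -/
theorem map_sum_locH (hf : (𝓝.comap f).Le 𝓝H) (n : ℕ) (x : Hsm 𝓝 (IndMod X A) n) :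
    Hsm.map (IndMod.sum (ResSet f X) (ResMod f A)) n (locH X hf A n x) =
      Hsm.map (ResMod.map f (IndMod.sum X A)) n (Hsm.res (IndMod X A) f 𝓝H 𝓝 hf n x) := sorry

end S3

/-! ## SYM-4 : file `Sym/CoverCocycle.lean` (the cocycle of a cyclic cover) -/

section S4

variable {X' X : Type} [MulAction G X'] [MulAction G X] {u : X' →[G] X} {σ : X' →[G] X'} {m : ℕ}

theorem exists_isCoverCocycle (h : CyclicCover u σ m) : ∃ c, IsCoverCocycle u σ m c := sorry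

theorem IsCoverCocycle.mem_Zsm (h : CyclicCover u σ m) [Finite X'] [SmoothSet 𝓝 X']
    {c : (Fin 1 → G) → IndMod X (Triv (ZMod m))} (hc : IsCoverCocycle u σ m c) :
    c ∈ Zsm 𝓝 (IndMod X (Triv (ZMod m))) 1 := sorry

/-- the class of the cover dies on the cover -/
theorem IsCoverCocycle.pull_eq_zero (h : CyclicCover u σ m) [Finite X'] [SmoothSet 𝓝 X']
    {c : (Fin 1 → G) → IndMod X (Triv (ZMod m))} (hc : IsCoverCocycle u σ m c)
    (hz : c ∈ Zsm 𝓝 (IndMod X (Triv (ZMod m))) 1) :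
    Hsm.map (IndMod.pull (Triv (ZMod m)) u) 1 (Hsm.mk 𝓝 _ 1 ⟨c, hz⟩) = 0 := sorry

/-- an equivariant section kills the class -/
theorem IsCoverCocycle.eq_zero_of_section (h : CyclicCover u σ m) [Finite X'] [SmoothSet 𝓝 X']
    {c : (Fin 1 → G) → IndMod X (Triv (ZMod m))} (hc : IsCoverCocycle u σ m c)
    (hz : c ∈ Zsm 𝓝 (IndMod X (Triv (ZMod m))) 1) (t : X →[G] X') (ht : ∀ x, u (t x) = x) :
    Hsm.mk 𝓝 _ 1 ⟨c, hz⟩ = 0 := sorry

end S4

/-! ## SYM-5 : file `Sym/ThetaOne.lean` (`θ_σ(1) = - β[c]`, the explicit computation) -/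

section S5

variable {X' X : Type} [MulAction G X'] [MulAction G X] {u : X' →[G] X} {σ : X' →[G] X'} {m : ℕ}
  [NeZero m] [Finite X'] [SmoothSet 𝓝 X'] [Finite X] [SmoothSet 𝓝 X]

theorem theta_one (h : CyclicCover u σ m) {c : (Fin 1 → G) → IndMod X (Triv (ZMod m))}
    (hc : IsCoverCocycle u σ m c) (hz : c ∈ Zsm 𝓝 (IndMod X (Triv (ZMod m))) 1) :
    h.theta 𝓝 (Triv ℤ) 0 (Hsm.H0equiv.symm (oneInv G X)) =
      - bock 𝓝 X m (Hsm.mk 𝓝 _ 1 ⟨c, hz⟩) := sorry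

end S5

/-! ## SYM-6 : file `Sym/ThetaSymb.lean` (`θ_σ(y) = - symb [c] y`) -/

section S6

variable {X' X A : Type} [MulAction G X'] [MulAction G X] {u : X' →[G] X} {σ : X' →[G] X'} {m : ℕ}
  [NeZero m] [Finite X'] [SmoothSet 𝓝 X'] [Finite X] [SmoothSet 𝓝 X]
  [AddCommGroup A] [DistribMulAction G A] [Smooth 𝓝 A]

theorem theta_eq_map_mulBy (h : CyclicCover u σ m) (y : inv0 G (IndMod X A)) :
    h.theta 𝓝 A 0 (Hsm.H0equiv.symm y) =
      Hsm.map (mulBy y) 2 (h.theta 𝓝 (Triv ℤ) 0 (Hsm.H0equiv.symm (oneInv G X))) := sorry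

theorem theta_eq_neg_symb (h : CyclicCover u σ m) {c : (Fin 1 → G) → IndMod X (Triv (ZMod m))}
    (hc : IsCoverCocycle u σ m c) (hz : c ∈ Zsm 𝓝 (IndMod X (Triv (ZMod m))) 1)
    (y : inv0 G (IndMod X A)) :
    h.theta 𝓝 A 0 (Hsm.H0equiv.symm y) = - symb 𝓝 (Hsm.mk 𝓝 _ 1 ⟨c, hz⟩) y := sorry

/-- if `H^1(Map(X', A)) = 0` the right kernel of `symb [c] ·` is the group of norms -/
theorem symb_eq_zero_iff (h : CyclicCover u σ m) {c : (Fin 1 → G) → IndMod X (Triv (ZMod m))}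
    (hc : IsCoverCocycle u σ m c) (hz : c ∈ Zsm 𝓝 (IndMod X (Triv (ZMod m))) 1)
    (hvan : ∀ z : Hsm 𝓝 (IndMod X' A) 1, z = 0) (y : inv0 G (IndMod X A)) :
    symb 𝓝 (Hsm.mk 𝓝 _ 1 ⟨c, hz⟩) y = 0 ↔
      ∃ y' : inv0 G (IndMod X' A), inv0.map (IndMod.push A u) y' = y := sorry

end S6

/-! ## SYM-7 : file `Sym/IndCoc.lean` (cocycles induced from characters of a subgroup) -/

section S7

variable {M : Type} [AddCommGroup M]

theorem indCoc_add (U : Subgroup G) (ψ ψ' : G → M) :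
    indCoc U (fun g => ψ g + ψ' g) = indCoc U ψ + indCoc U ψ' := sorry

theorem indCoc_zero (U : Subgroup G) : indCoc U (fun _ => (0 : M)) = 0 := sorry

/-- only the restriction of `ψ` to `U` matters -/
theorem indCoc_congr (U : Subgroup G) {ψ ψ' : G → M} (h : ∀ a ∈ U, ψ a = ψ' a) :
    indCoc U ψ = indCoc U ψ' := sorry

theorem indCoc_mem_Zsm (U : Subgroup G) (ψ : G → M)
    (hψ : ∀ a ∈ U, ∀ b ∈ U, ψ (a * b) = ψ a + ψ b) {N : Subgroup G} (hN : N ∈ 𝓝.carrier)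
    (hNU : N ≤ U) (hNψ : ∀ n ∈ N, ψ n = 0) :
    indCoc U ψ ∈ Zsm 𝓝 (IndMod (G ⧸ U) (Triv M)) 1 := sorry

theorem isCoverCocycle_indCoc {U' U : Subgroup G} (h : U' ≤ U) (s₀ : G) (hs₀ : s₀ ∈ U)
    (hs : ∀ v ∈ U', s₀⁻¹ * v * s₀ ∈ U') (m : ℕ) [NeZero m] (ψ : G → ZMod m)
    (hψ : ∀ a ∈ U, ∀ b ∈ U, ψ (a * b) = ψ a + ψ b) (hker : ∀ a ∈ U, ψ a = 0 ↔ a ∈ U')
    (h1 : ψ s₀ = 1) :
    IsCoverCocycle (cosetMap h) (cosetRight U' s₀ hs) m (indCoc U ψ) := sorry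

/-- under the same hypotheses the coset map is a cyclic cover of degree `m` -/
theorem cyclicCover_of_char {U' U : Subgroup G} (h : U' ≤ U) (s₀ : G) (hs₀ : s₀ ∈ U)
    (hs : ∀ v ∈ U', s₀⁻¹ * v * s₀ ∈ U') (m : ℕ) [NeZero m] (ψ : G → ZMod m)
    (hψ : ∀ a ∈ U, ∀ b ∈ U, ψ (a * b) = ψ a + ψ b) (hker : ∀ a ∈ U, ψ a = 0 ↔ a ∈ U')
    (h1 : ψ s₀ = 1) : CyclicCover (cosetMap h) (cosetRight U' s₀ hs) m := sorry

end S7

/-! ## SYM-8 : file `Sym/Orbit.lean` (the part of a cover over an orbit; dichotomy) -/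

section S8

variable {Y' Y : Type} [MulAction G Y'] [MulAction G Y] {u : Y' →[G] Y} {σ : Y' →[G] Y'} {m : ℕ}

instance smoothSet_orbit [SmoothSet 𝓝 Y] (ω : MulAction.orbitRel.Quotient G Y) :
    SmoothSet 𝓝 ω.orbit := sorry

instance smoothSet_preOrb [SmoothSet 𝓝 Y'] (ω : MulAction.orbitRel.Quotient G Y) :
    SmoothSet 𝓝 (PreOrb u ω) := sorry

instance isPretransitive_orbit (ω : MulAction.orbitRel.Quotient G Y) :
    MulAction.IsPretransitive G ω.orbit := sorry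

theorem cyclicCover_preOrb (h : CyclicCover u σ m) (ω : MulAction.orbitRel.Quotient G Y) :
    CyclicCover (PreOrb.proj u ω) (PreOrb.deck u ω σ h.comm) m := sorry

theorem IsCoverCocycle.preOrb (h : CyclicCover u σ m)
    {c : (Fin 1 → G) → IndMod Y (Triv (ZMod m))} (hc : IsCoverCocycle u σ m c)
    (ω : MulAction.orbitRel.Quotient G Y) :
    IsCoverCocycle (PreOrb.proj u ω) (PreOrb.deck u ω σ h.comm) m
      (cmap (IndMod.pull (Triv (ZMod m)) (orbitIncl ω) :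
        IndMod Y (Triv (ZMod m)) →+ IndMod ω.orbit (Triv (ZMod m))) 1 c) := sorry

/-- a cyclic cover of prime degree of a transitive set is transitive or has a section -/
theorem transitive_or_section {p : ℕ} (hp : p.Prime) (h : CyclicCover u σ p)
    [MulAction.IsPretransitive G Y] :
    MulAction.IsPretransitive G Y' ∨ ∃ t : Y →[G] Y', ∀ y, u (t y) = y := sorry

/-- sections over all orbits glue -/
theorem exists_section_of_orbits
    (hs : ∀ ω : MulAction.orbitRel.Quotient G Y,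
      ∃ t : ω.orbit →[G] PreOrb u ω, ∀ y, PreOrb.proj u ω (t y) = y) :
    ∃ t : Y →[G] Y', ∀ y, u (t y) = y := sorry

/-- the square `PreOrb → Y'`, `orbit → Y` : push along the inclusions commutes with push along the
covers -/
theorem push_incl_push {A : Type} [AddCommGroup A] [DistribMulAction G A] [Finite Y'] [Finite Y]
    (ω : MulAction.orbitRel.Quotient G Y) (F : IndMod (PreOrb u ω) A) :
    IndMod.push A u (IndMod.push A (PreOrb.incl u ω) F) =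
      IndMod.push A (orbitIncl ω) (IndMod.push A (PreOrb.proj u ω) F) := sorry

end S8

end Fermat.Agent.S55.Sym.WIP
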